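import Mathlib

/-!
An irreducible two-dimensional representation satisfying integral-style quadratic relations with
"odd" constant terms has no normal subgroup with abelian quotient acting unipotently.
-/

set_option autoImplicit false

open Module

namespace Fermat.Agent.ConductorLevel

variable {G : Type*} [Group G] {F : Type*} [Field F] {V : Type*} [AddCommGroup V] [Module F V]

theorem false_of_irreducible_of_unipotent (hV : finrank F V = 2) (e : G →* Module.End F V)
    (hirr : ∀ W : Submodule F V, (∀ g, ∀ x ∈ W, e g x ∈ W) → W = ⊥ ∨ W = ⊤)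
    (h2 : (2 : F) ≠ 0) (H : Subgroup G) (hcomm : ∀ a b : G, a * b * a⁻¹ * b⁻¹ ∈ H)
    (hH : ∀ g ∈ H, (e g - 1) * (e g - 1) = 0)
    {c : G} (hc : c * c = 1)
    (hrel : ∀ g : G, ∃ T T' D : F, D ≠ 0 ∧ e g * e g - T • e g + D • 1 = 0 ∧
      e (c * g) * e (c * g) - T' • e (c * g) - D • 1 = 0) : False := by
  have : FiniteDimensional F V := Module.finite_of_finrank_eq_succ hV
  have : Nontrivial V := Module.nontrivial_of_finrank_pos (R := F) (by omega)
  have hline : ∀ v : V, v ≠ 0 → (Submodule.span F {v} ≠ ⊥ ∧ Submodule.span F {v} ≠ ⊤) := by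
    intro v hv
    refine ⟨by simpa using hv, fun h => ?_⟩
    have := finrank_span_singleton (K := F) hv
    rw [h, finrank_top, hV] at this
    omega
  by_cases htriv : ∀ u ∈ H, e u = 1
  · have hab : ∀ a b, e a * e b = e b * e a := by
      intro a b
      have h1 := htriv _ (hcomm a b)
      have h2 := congrArg (fun x => x * (e b * e a)) h1
      simp only [one_mul, ← map_mul] at h2 ⊢
      convert h2 using 2
      group
    have hcc : e c * e c = 1 := by rw [← map_mul, hc, map_one]
    obtain ⟨s, hs, hs2⟩ : ∃ s : F, e c = s • 1 ∧ s * s = 1 := by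
      rcases hirr (LinearMap.ker (e c - 1)) (fun g x hx => by
        rw [LinearMap.mem_ker, LinearMap.sub_apply, Module.End.one_apply, sub_eq_zero] at hx ⊢
        rw [← Module.End.mul_apply, hab, Module.End.mul_apply, hx]) with hb | ht
      · refine ⟨-1, ?_, by ring⟩
        have hinj := LinearMap.ker_eq_bot.1 hb
        refine LinearMap.ext fun x => ?_
        have h3 : (e c - 1) (e c x + x) = (e c - 1) 0 := by
          rw [map_zero, LinearMap.sub_apply, Module.End.one_apply, map_add, ← Module.End.mul_apply,
            hcc, Module.End.one_apply]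
          abel
        rw [LinearMap.smul_apply, Module.End.one_apply, neg_one_smul, eq_neg_iff_add_eq_zero]
        exact hinj h3
      · refine ⟨1, ?_, by ring⟩
        rw [one_smul, ← sub_eq_zero]
        exact LinearMap.ker_eq_top.1 ht
    obtain ⟨g, hg⟩ : ∃ g, ∀ r : F, e g ≠ r • 1 := by
      by_contra hne
      push Not at hne
      obtain ⟨v, hv⟩ := exists_ne (0 : V)
      obtain ⟨h1, h1'⟩ := hline v hv
      rcases hirr (Submodule.span F {v}) (fun g x hx => by
        obtain ⟨r, hr⟩ := hne g
        rw [hr, LinearMap.smul_apply, Module.End.one_apply]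
        exact Submodule.smul_mem _ r hx) with h3 | h3
      exacts [h1 h3, h1' h3]
    obtain ⟨T, T', D, hD, r1, r2⟩ := hrel g
    rw [map_mul, hs, smul_mul_assoc, one_mul, smul_mul_assoc, mul_smul_comm, smul_smul, hs2,
      one_smul, smul_smul] at r2
    have key : (T' * s - T) • e g + (2 * D) • (1 : Module.End F V) = 0 := by
      linear_combination (norm := module) r1 - r2
    by_cases hk : T' * s - T = 0
    · rw [hk, zero_smul, zero_add] at key
      rcases smul_eq_zero.1 key with h | h
      · exact mul_ne_zero h2 hD h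
      · exact one_ne_zero h
    · refine hg (-(2 * D) / (T' * s - T)) ?_
      rw [div_eq_inv_mul, ← smul_smul, neg_smul, ← eq_neg_of_add_eq_zero_left key, smul_smul,
        inv_mul_cancel₀ hk, one_smul]
  · push Not at htriv
    obtain ⟨u, hu, hu1⟩ := htriv
    obtain ⟨N, hN⟩ : ∃ N, N = e u - 1 := ⟨_, rfl⟩
    have hN0 : N ≠ 0 := hN ▸ sub_ne_zero.2 hu1
    have hNN : N * N = 0 := hN ▸ hH u hu
    obtain ⟨x, hx⟩ : ∃ x, N x ≠ 0 := by
      by_contra h
      push Not at h
      exact hN0 (LinearMap.ext h)
    obtain ⟨z, hz⟩ : ∃ z, z = N x := ⟨_, rfl⟩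
    have hNz : N z = 0 := by
      rw [hz, ← Module.End.mul_apply, hNN, LinearMap.zero_apply]
    have hker : ∀ y, N y = 0 → y ∈ Submodule.span F {z} := by
      intro y hy
      have hle : Submodule.span F {z} ≤ LinearMap.ker N := by
        rw [Submodule.span_singleton_le_iff_mem]; exact hNz
      have hne : LinearMap.ker N ≠ ⊤ := fun h => hN0 (LinearMap.ker_eq_top.1 h)
      have hlt := Submodule.finrank_lt hne
      have h1 := finrank_span_singleton (K := F) (hz ▸ hx : z ≠ 0)
      rw [Submodule.eq_of_le_of_finrank_le hle (by omega)]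
      exact hy
    have hfix : ∀ v ∈ H, e v z = z := by
      intro v hv
      obtain ⟨M, hM⟩ : ∃ M, M = e v - 1 := ⟨_, rfl⟩
      have hMM : M * M = 0 := hM ▸ hH v hv
      have hP := hH _ (H.mul_mem hu hv)
      have e1 : e (u * v) - 1 = N + M + N * M := by
        rw [hN, hM, map_mul]; noncomm_ring
      rw [e1] at hP
      have h4 : N * M * N * (1 + M) = 0 := by
        have e2 : N * ((N + M + N * M) * (N + M + N * M)) = N * N * ((1 + M) * (N + M + N * M))
            + N * (M * M) + N * M * N * (1 + M) := by noncomm_ring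
        rw [hP, hNN, hMM] at e2
        simpa using e2.symm
      have hNMN : N * M * N = 0 := by
        have h6 := congrArg (fun f => f * (1 - M)) h4
        simp only [zero_mul] at h6
        have h7 : (1 + M) * (1 - M) = 1 := by
          rw [show (1 + M) * (1 - M) = 1 - M * M by noncomm_ring, hMM, sub_zero]
        rwa [mul_assoc, h7, mul_one] at h6
      have h8 : N (M z) = 0 := by
        rw [hz, ← Module.End.mul_apply, ← Module.End.mul_apply, hNMN, LinearMap.zero_apply]
      obtain ⟨α, hα⟩ := Submodule.mem_span_singleton.1 (hker _ h8)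
      have hz0 : z ≠ 0 := hz ▸ hx
      have h9 : (α * α) • z = 0 := by
        rw [← smul_smul, hα, ← map_smul, hα, ← Module.End.mul_apply, hMM, LinearMap.zero_apply]
      rcases smul_eq_zero.1 h9 with h | h
      · rw [mul_self_eq_zero] at h
        rw [h, zero_smul, hM, LinearMap.sub_apply, Module.End.one_apply] at hα
        exact sub_eq_zero.1 hα.symm
      · exact absurd h hz0
    have hconj : ∀ a : G, a⁻¹ * u * a ∈ H := by
      intro a
      have := H.mul_mem (hcomm a⁻¹ u) hu
      rwa [inv_inv, inv_mul_cancel_right] at this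
    obtain ⟨h1, h1'⟩ := hline z (hz ▸ hx)
    rcases hirr (Submodule.span F {z}) (fun g y hy => by
      obtain ⟨r, rfl⟩ := Submodule.mem_span_singleton.1 hy
      rw [map_smul]
      refine Submodule.smul_mem _ r (hker _ ?_)
      have h2 := hfix _ (hconj g)
      have h3 : e g (e (g⁻¹ * u * g) z) = e u (e g z) := by
        rw [← Module.End.mul_apply, ← Module.End.mul_apply, ← map_mul, ← map_mul]
        group
      rw [h2] at h3
      rw [hN, LinearMap.sub_apply, Module.End.one_apply, ← h3, sub_self]) with h3 | h3
    exacts [h1 h3, h1' h3]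

end Fermat.Agent.ConductorLevel
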