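import Fermat.Agent.HeckeDuality.Eigenform
import Fermat.Agent.IntegralStructure.Main
import Fermat.Agent.HeckeDuality.EigenConverse

/-!
A normalised eigenform is an eigenvector of the Hecke algebra; its eigencharacter.
-/

set_option autoImplicit false

noncomputable section

namespace Fermat.Agent.ConductorLevel

open CongruenceSubgroup ModularFormClass UpperHalfPlane HeckeDuality

variable {N : ℕ} [NeZero N] {f : CuspForm (Gamma0 N) 2}

/-- A normalised eigenform is an eigenvector of `T_ℓ` and `U_ℓ`. -/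
theorem heckeOp_eigen (hf : f.IsNormalizedEigenform) {ℓ : ℕ} (hℓ : ℓ.Prime) :
    (heckeOp N 2 ℓ hℓ).1 f = qCoeff f ℓ • f :=
  HeckeDuality.heckeOp_apply_of_isNormalizedEigenform hf hℓ

variable {S : Set ℕ}

theorem exists_eigenvalue (hf : f.IsNormalizedEigenform)
    (R : Subalgebra ℤ ℂ) (hR : ∀ ℓ : ℕ, ℓ.Prime → ℓ ∉ S → qCoeff f ℓ ∈ R)
    (t : CuspForm.heckeAlgebra N 2 S) : ∃ c ∈ R, t.1 f = c • f := by
  obtain ⟨t, ht⟩ := t
  induction ht using Algebra.adjoin_induction with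
  | mem x hx =>
    rcases hx with ⟨ℓ, hℓ, hℓN, hℓS, rfl⟩ | ⟨ℓ, hℓN, hℓ, hℓS, rfl⟩
    · refine ⟨_, hR ℓ hℓ hℓS, ?_⟩
      have h := heckeOp_eigen hf hℓ
      rwa [heckeOp, dif_neg hℓN, CuspForm.heckeAlgebra.coe_T] at h
    · refine ⟨_, hR ℓ hℓ hℓS, ?_⟩
      have h := heckeOp_eigen hf hℓ
      rwa [heckeOp, dif_pos hℓN, CuspForm.heckeAlgebra.coe_U] at h
  | algebraMap m =>
    exact ⟨_, R.algebraMap_mem m, by simp [← Int.cast_smul_eq_zsmul ℂ m f]⟩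
  | add x y _ _ hx hy =>
    obtain ⟨c, hc, hcx⟩ := hx
    obtain ⟨d, hd, hdy⟩ := hy
    exact ⟨_, R.add_mem hc hd, by simp [LinearMap.add_apply, hcx, hdy, add_smul]⟩
  | mul x y _ _ hx hy =>
    obtain ⟨c, hc, hcx⟩ := hx
    obtain ⟨d, hd, hdy⟩ := hy
    exact ⟨_, R.mul_mem hc hd, by
      simp [Module.End.mul_apply, hdy, map_smul, hcx, smul_smul, mul_comm c d]⟩

theorem eigen_apply (hf : f.IsNormalizedEigenform) (t : CuspForm.heckeAlgebra N 2 S) :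
    t.1 f = qCoeff (t.1 f) 1 • f := by
  obtain ⟨c, -, hc⟩ := exists_eigenvalue hf ⊤ (fun _ _ _ => Algebra.mem_top) t
  rw [hc, coeff_smul, hf.qCoeff_one, mul_one]

/-- The eigencharacter `t ↦ a₁(t f)`. -/
def eigenChar (hf : f.IsNormalizedEigenform) (S : Set ℕ) :
    CuspForm.heckeAlgebra N 2 S →+* ℂ where
  toFun t := qCoeff (t.1 f) 1
  map_one' := hf.qCoeff_one
  map_mul' s t := by
    show qCoeff ((s.1 * t.1) f) 1 = _
    rw [Module.End.mul_apply, eigen_apply hf t, map_smul, coeff_smul, mul_comm, coeff_smul,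
      hf.qCoeff_one, mul_one]
  map_zero' := by
    show coeffLin N 2 1 ((0 : Module.End ℂ (CuspForm (Gamma0 N) 2)) f) = 0
    rw [LinearMap.zero_apply, map_zero]
  map_add' s t := by
    show coeffLin N 2 1 ((s.1 + t.1) f) = coeffLin N 2 1 (s.1 f) + coeffLin N 2 1 (t.1 f)
    rw [LinearMap.add_apply, map_add]

theorem eigenChar_T (hf : f.IsNormalizedEigenform) {ℓ : ℕ} (hℓ : ℓ.Prime) (hℓN : ¬ ℓ ∣ N)
    (hℓS : ℓ ∉ S) :
    eigenChar hf S (CuspForm.heckeAlgebra.T hℓ hℓN hℓS) = qCoeff f ℓ := by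
  have h := heckeOp_eigen hf hℓ
  rw [heckeOp, dif_neg hℓN, CuspForm.heckeAlgebra.coe_T] at h
  show qCoeff (CuspForm.heckeTLin 2 hℓ hℓN f) 1 = _
  rw [h, coeff_smul, hf.qCoeff_one, mul_one]

theorem eigenChar_range_le (hf : f.IsNormalizedEigenform) (R : Subalgebra ℤ ℂ)
    (hR : ∀ ℓ : ℕ, ℓ.Prime → ℓ ∉ S → qCoeff f ℓ ∈ R) :
    (eigenChar hf S).range ≤ R.toSubring := by
  rintro x ⟨t, rfl⟩
  obtain ⟨c, hc, hct⟩ := exists_eigenvalue hf R hR t
  show qCoeff (t.1 f) 1 ∈ R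
  rwa [hct, coeff_smul, hf.qCoeff_one, mul_one]

theorem isIntegral_qCoeff (hf : f.IsNormalizedEigenform) {ℓ : ℕ} (hℓ : ℓ.Prime) :
    IsIntegral ℤ (qCoeff f ℓ) := by
  have : Module.Finite ℤ ↥(CuspForm.heckeAlgebra N 2 ∅) :=
    heckeAlgebra_finite_of_integralStructure ∅ (IntegralStructure.hasIntegralStructure N 2)
  have h1 : IsIntegral ℤ (heckeOp N 2 ℓ hℓ) := Algebra.IsIntegral.isIntegral _
  have h2 := h1.map (eigenChar hf ∅).toIntAlgHom
  have h3 : (eigenChar hf ∅).toIntAlgHom (heckeOp N 2 ℓ hℓ) = qCoeff f ℓ := by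
    show qCoeff ((heckeOp N 2 ℓ hℓ).1 f) 1 = _
    rw [heckeOp_eigen hf hℓ, coeff_smul, hf.qCoeff_one, mul_one]
  rwa [h3] at h2

end Fermat.Agent.ConductorLevel
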