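import Fermat.Agent.EC.FrobTrace.Main
import Fermat.Agent.EC.Reduction.GoodPrime
import Fermat.Agent.EC.Multiplicative.Int
import Fermat.Agent.EC.Torsion.Structure
import Fermat.Prelude.Def_FLTPrelim_Modularity

/-!
The inputs from the elliptic curve: unipotence of inertia, a point of exact order, and the trivial
bound on the number of points mod a prime.
-/

set_option autoImplicit false

noncomputable section

open WeierstrassCurve
open scoped WeierstrassCurve.Affine
open Fermat.Agent.Arith Fermat.Agent.EC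

namespace Fermat.Agent.ConductorLevel

local notation "Q̄" => AlgebraicClosure ℚ

variable (W : WeierstrassCurve ℤ)

/-- The `ℚ̄`-points of an integral model. -/
abbrev Pts : Type := ((W.map (Int.castRingHom ℚ))⁄Q̄).Point

lemma natCard_point_le {k : Type*} [Field k] [Fintype k] (V : WeierstrassCurve.Affine k)
    [V.IsElliptic] : Nat.card V.Point ≤ 2 * Fintype.card k + 1 := by
  classical
  rw [FrobTrace.natCard_point]
  have h2 : ∀ x₀ : k, (FrobTrace.fiber V x₀).card ≤ 2 := fun x₀ => by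
    by_cases hf : FrobTrace.fiber V x₀ = ∅
    · simp [hf]
    · obtain ⟨y, hy⟩ := Finset.nonempty_iff_ne_empty.mpr hf
      rw [FrobTrace.fiber_eq V ((FrobTrace.mem_fiber V).mp hy)]
      exact (Finset.card_insert_le _ _).trans (by simp)
  have := Finset.sum_le_card_nsmul Finset.univ _ 2 fun x₀ _ => h2 x₀
  rw [Finset.card_univ, smul_eq_mul] at this
  omega

variable {W}

lemma isElliptic_reductionMod {ℓ : ℕ} [Fact ℓ.Prime] (hgood : W.IsGoodPrimeFor ℓ) :
    (W.reductionMod ℓ).IsElliptic := by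
  refine ⟨isUnit_iff_ne_zero.2 fun h => hgood ?_⟩
  rw [WeierstrassCurve.reductionMod, map_Δ] at h
  exact (ZMod.intCast_zmod_eq_zero_iff_dvd _ _).1 h

lemma apOfModel_ne {ℓ : ℕ} [Fact ℓ.Prime] (hgood : W.IsGoodPrimeFor ℓ) :
    W.apOfModel ℓ ≠ ℓ + 1 ∧ W.apOfModel ℓ ≠ -(ℓ + 1 : ℤ) := by
  have := isElliptic_reductionMod hgood
  have h := natCard_point_le (W.reductionMod ℓ).toAffine
  rw [ZMod.card] at h
  have hpos : 0 < Nat.card (W.reductionMod ℓ).toAffine.Point := by
    have : Nonempty (W.reductionMod ℓ).toAffine.Point := ⟨0⟩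
    exact Nat.card_pos
  simp only [apOfModel, traceOfFrobenius, WeierstrassCurve.card, Nat.card_zmod]
  omega

variable {A : ValuationSubring Q̄} {σ : Q̄ ≃ₐ[ℚ] Q̄}

/-- Inertia at a semistable prime acts unipotently on prime-to-`q` torsion. -/
theorem inertia_relation (hss : W.IsSemistableModel) (hΔ0 : W.Δ ≠ 0) {q : ℕ} (hq : q.Prime)
    (hA : A.LiesOverPrime q) (hσ : σ ∈ A.inertiaSubgroupIn ℚ) {n : ℕ} (hn : ¬ q ∣ n)
    {P : Pts W} (hP : n • P = 0) :
    σ • σ • P - (2 : ℤ) • (σ • P) + P = 0 := by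
  have h := Multiplicative.smul_sub_smul_sub_of_semistable hA hq hΔ0
    (fun hh => hss q hq hh.2 hh.1) hσ hn hP
  rw [smul_sub] at h
  rw [two_zsmul]
  linear_combination (norm := abel) h

/-- A point of exact order `n`. -/
theorem exists_point_addOrderOf (hΔ0 : W.Δ ≠ 0) {n : ℕ} (hn : n ≠ 0) :
    ∃ P : Pts W, addOrderOf P = n := by
  classical
  have := FrobTrace.isElliptic_map_rat hΔ0
  exact Torsion.exists_addOrderOf_eq ((W.map (Int.castRingHom ℚ))⁄Q̄) (Nat.cast_ne_zero.2 hn)

end Fermat.Agent.ConductorLevel
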