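import Fermat.Agent.ConductorLevel.Assembly
import Fermat.Agent.Carayol.Bound.Input
import Fermat.Agent.NewformLocal.Models

/-!
# Conductor–level matching from the congruences on torsion
-/

set_option autoImplicit false

noncomputable section

namespace Fermat.Agent.ConductorLevel

theorem newformRepInput
    (hES : ∀ (N p : ℕ) [NeZero N] [Fact p.Prime], GaloisReps.CongruenceProperty N p) :
    NewformRepInput := by
  intro M _ g hg lam _ S O' _ _ _ _ _ _ hlamO' chig hchig iota hlamS hMS
  exact NewformLocal.exists_rep_of_models (NewformLocal.exists_models hES) hg lam S O' hlamO'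
    chig hchig iota hlamS hMS

/-- Conductor–level matching from the congruences on torsion. -/
theorem conductorLevel_of_congruences
    (hES : ∀ (N p : ℕ) [NeZero N] [Fact p.Prime], GaloisReps.CongruenceProperty N p)
    (W : WeierstrassCurve ℤ) (hss : W.IsSemistableModel) (N : ℕ)
    (p : ℕ) [Fact p.Prime] (hp2 : p ≠ 2) (hirr : W.ModRepIsIrreducible p)
    (hp2N : ¬ p ^ 2 ∣ N)
    (hN : W.IsModularModelOfLevel N) (hbad : ∀ ℓ : ℕ, ℓ.Prime → (ℓ : ℤ) ∣ W.Δ → ℓ ∣ N)
    (hN3 : ∀ q : ℕ, q.Prime → ¬ q ^ 3 ∣ N) :
    W.IsModularModelOfLevel W.conductorLevel :=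
  isModularModelOfLevel_conductorLevel (newformRepInput hES) (Carayol.newformCarayolInput hES)
    W hss N p hp2 hirr hp2N hN hbad hN3

end Fermat.Agent.ConductorLevel

end
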