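import Fermat.Agent.ConductorLevel.Compare
import Mathlib.RingTheory.Filtration
import Mathlib.RingTheory.DiscreteValuationRing.Basic

/-!
Local consequences of the comparison: unipotence of inertia and traces of Frobenius at good primes.
-/

set_option autoImplicit false

noncomputable section

open WeierstrassCurve Polynomial
open scoped WeierstrassCurve.Affine
open Fermat.Agent.Arith

namespace Fermat.Agent.ConductorLevel

local notation "Q̄" => AlgebraicClosure ℚ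

variable {W : WeierstrassCurve ℤ} {O : Type} [CommRing O] [IsDomain O] [IsDiscreteValuationRing O]
  {lam : ℕ}

lemma exists_pow_maximalIdeal_le [CharZero O] (hlam : lam.Prime) (n : ℕ) :
    ∃ N, IsLocalRing.maximalIdeal O ^ N ≤ Ideal.span {((lam ^ n : ℕ) : O)} := by
  obtain ⟨ϖ, hϖ⟩ := IsDiscreteValuationRing.exists_irreducible O
  obtain ⟨N, hN⟩ := IsDiscreteValuationRing.ideal_eq_span_pow_irreducible
    (s := Ideal.span {((lam ^ n : ℕ) : O)})
    (by rw [Ne, Ideal.span_singleton_eq_bot]; exact Nat.cast_ne_zero.2 (pow_ne_zero _ hlam.ne_zero))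
    hϖ
  exact ⟨N, by rw [hN, hϖ.maximalIdeal_eq, Ideal.span_singleton_pow]⟩

lemma eq_zero_of_forall_mem_span (hlamO : (lam : O) ∈ IsLocalRing.maximalIdeal O) {x : O}
    (h : ∀ n : ℕ, x ∈ Ideal.span {((lam ^ n : ℕ) : O)}) : x = 0 := by
  have h1 : x ∈ ⨅ n : ℕ, IsLocalRing.maximalIdeal O ^ n := by
    refine Submodule.mem_iInf _ |>.2 fun n => ?_
    have hle : Ideal.span {((lam ^ n : ℕ) : O)} ≤ IsLocalRing.maximalIdeal O ^ n := by
      rw [Ideal.span_singleton_le_iff_mem, Nat.cast_pow]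
      exact Ideal.pow_mem_pow hlamO n
    exact hle (h n)
  rwa [Ideal.iInf_pow_eq_bot_of_isDomain _ (IsLocalRing.maximalIdeal.isMaximal O).ne_top,
    Submodule.mem_bot] at h1

lemma dvd_sub_of_roots {m : ℕ} [NeZero m] {D D' : ℕ}
    (h : ∀ μ : Q̄, μ ^ m = 1 → μ ^ D = μ ^ D') : (m : ℤ) ∣ (D : ℤ) - D' := by
  obtain ⟨ζ, hζ⟩ := HasEnoughRootsOfUnity.exists_primitiveRoot Q̄ m
  have h1 := h ζ hζ.pow_eq_one
  have hζ0 : ζ ≠ 0 := hζ.ne_zero (NeZero.ne m)
  rw [← hζ.zpow_eq_one_iff_dvd, zpow_sub₀ hζ0, zpow_natCast, zpow_natCast, h1,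
    div_self (pow_ne_zero _ hζ0)]

variable [CharZero O] {ρ : GaloisRepAdic O} {S : Finset ℕ}

/-- Inertia at a semistable prime acts unipotently. -/
theorem isUnipotentOnInertiaAt_of_matches (hss : W.IsSemistableModel) (hΔ0 : W.Δ ≠ 0)
    (hρ : MatchesCurve ρ W S) (hS : ∀ ℓ : ℕ, ℓ.Prime → ℓ ∉ S → W.IsGoodPrimeFor ℓ)
    (hlam : lam.Prime) (hlamS : lam ∈ S) (hlamO : (lam : O) ∈ IsLocalRing.maximalIdeal O)
    {q : ℕ} (hq : q.Prime) (hqlam : q ≠ lam) : ρ.IsUnipotentOnInertiaAt q := by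
  intro A hA σ hσ
  have key : ∀ n : ℕ, ρ.trace σ - 2 ∈ Ideal.span {((lam ^ n : ℕ) : O)} ∧
      LinearMap.det (ρ.ρ σ) - 1 ∈ Ideal.span {((lam ^ n : ℕ) : O)} := by
    intro n
    obtain ⟨N, hN⟩ := exists_pow_maximalIdeal_le (O := O) hlam n
    obtain ⟨T, D, hT, hD, hroot, hrel⟩ := exists_relation hΔ0 hρ hS hlam hlamS hN σ
    have : NeZero (lam ^ n) := ⟨pow_ne_zero _ hlam.ne_zero⟩
    have hqn : ¬ q ∣ lam ^ n := fun hd =>
      hqlam ((Nat.prime_dvd_prime_iff_eq hq hlam).1 (hq.dvd_of_dvd_pow hd))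
    have hD1 : ((lam ^ n : ℕ) : ℤ) ∣ (D : ℤ) - 1 := by
      have := dvd_sub_of_roots (m := lam ^ n) (D := D) (D' := 1) fun μ hμ => by
        rw [pow_one, ← hroot μ hμ]
        exact Arith.inertia_root hA hq hσ hμ hqn
      exact_mod_cast this
    obtain ⟨P, hP⟩ := exists_point_addOrderOf (W := W) hΔ0 (n := lam ^ n)
      (pow_ne_zero _ hlam.ne_zero)
    have hP0 : lam ^ n • P = 0 := hP ▸ addOrderOf_nsmul_eq_zero P
    have h1 := hrel P hP0
    have h2 := inertia_relation hss hΔ0 hq hA hσ hqn hP0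
    have h3 : (2 - T) • (σ • P) + ((D : ℤ) - 1) • P = 0 := by
      rw [sub_smul, sub_smul, one_smul]
      linear_combination (norm := abel) h1 - h2
    have h4 : ((D : ℤ) - 1) • P = 0 :=
      (addOrderOf_dvd_iff_zsmul_eq_zero).1 (by rw [hP]; exact hD1)
    rw [h4, add_zero] at h3
    have hord : addOrderOf (σ • P) = lam ^ n := by
      rw [← hP]
      exact addOrderOf_injective (DistribSMul.toAddMonoidHom (Pts W) σ)
        (MulAction.injective σ) P
    have hT2 : ((lam ^ n : ℕ) : ℤ) ∣ 2 - T := by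
      have := addOrderOf_dvd_iff_zsmul_eq_zero.2 h3
      rwa [hord] at this
    constructor
    · have := Ideal.sub_mem _ hT (mem_span_of_dvd (O := O) hT2)
      push_cast at this ⊢
      convert this using 1; ring
    · have := Ideal.add_mem _ hD (mem_span_of_dvd (O := O) hD1)
      push_cast at this ⊢
      convert this using 1; ring
  have htr : LinearMap.trace O ρ.V (ρ.ρ σ) = 2 :=
    sub_eq_zero.1 (eq_zero_of_forall_mem_span hlamO fun n => (key n).1)
  have hdet : LinearMap.det (ρ.ρ σ) = 1 :=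
    sub_eq_zero.1 (eq_zero_of_forall_mem_span hlamO fun n => (key n).2)
  rw [charpoly_two ρ.finrank_eq, htr, hdet, map_one, map_ofNat]
  ring

/-- The trace of Frobenius at a good prime `q ≠ λ` is `a_q` of the curve. -/
theorem trace_frobenius_of_matches (hΔ0 : W.Δ ≠ 0)
    (hρ : MatchesCurve ρ W S) (hS : ∀ ℓ : ℕ, ℓ.Prime → ℓ ∉ S → W.IsGoodPrimeFor ℓ)
    (hlam : lam.Prime) (hlamS : lam ∈ S) (hlamO : (lam : O) ∈ IsLocalRing.maximalIdeal O)
    {q : ℕ} (hq : q.Prime) (hqlam : q ≠ lam) (hgood : W.IsGoodPrimeFor q)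
    {A : ValuationSubring Q̄} (hA : A.LiesOverPrime q) {σ : Q̄ ≃ₐ[ℚ] Q̄}
    (hσ : A.IsFrobeniusAt σ q) : ρ.trace σ = (W.apOfModel q : O) := by
  refine sub_eq_zero.1 (eq_zero_of_forall_mem_span hlamO fun n => ?_)
  obtain ⟨N, hN⟩ := exists_pow_maximalIdeal_le (O := O) hlam n
  obtain ⟨T, D, hT, -, hroot, hrel⟩ := exists_relation hΔ0 hρ hS hlam hlamS hN σ
  have : NeZero (lam ^ n) := ⟨pow_ne_zero _ hlam.ne_zero⟩
  have hqn : ¬ q ∣ lam ^ n := fun hd =>
    hqlam ((Nat.prime_dvd_prime_iff_eq hq hlam).1 (hq.dvd_of_dvd_pow hd))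
  have hD1 : ((lam ^ n : ℕ) : ℤ) ∣ (D : ℤ) - q :=
    dvd_sub_of_roots (m := lam ^ n) fun μ hμ => by
      rw [← hroot μ hμ]; exact Arith.frobenius_root hA hq hσ hμ hqn
  obtain ⟨P, hP⟩ := exists_point_addOrderOf (W := W) hΔ0 (n := lam ^ n)
    (pow_ne_zero _ hlam.ne_zero)
  have hP0 : lam ^ n • P = 0 := hP ▸ addOrderOf_nsmul_eq_zero P
  have h1 := hrel P hP0
  have h2 := EC.FrobTrace.frobenius_quadratic_torsion hq hgood hA hσ hqn P
    ((natCast_zsmul _ _).trans hP0)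
  have h3 : (W.apOfModel q - T) • (σ • P) + ((D : ℤ) - q) • P = 0 := by
    rw [sub_smul, sub_smul]
    linear_combination (norm := abel) h1 - h2
  have h4 : ((D : ℤ) - q) • P = 0 :=
    (addOrderOf_dvd_iff_zsmul_eq_zero).1 (by rw [hP]; exact hD1)
  rw [h4, add_zero] at h3
  have hord : addOrderOf (σ • P) = lam ^ n := by
    rw [← hP]
    exact addOrderOf_injective (DistribSMul.toAddMonoidHom (Pts W) σ) (MulAction.injective σ) P
  have hTa : ((lam ^ n : ℕ) : ℤ) ∣ W.apOfModel q - T := by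
    have := addOrderOf_dvd_iff_zsmul_eq_zero.2 h3
    rwa [hord] at this
  have := Ideal.sub_mem _ hT (mem_span_of_dvd (O := O) hTa)
  push_cast at this ⊢
  convert this using 1; ring

end Fermat.Agent.ConductorLevel
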